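import Fermat.Agent.S55.Local.Spec
import Fermat.Agent.S55.Herbrand.RepBridge

/-!
# S55, layer L, glue T3' (helper717): `|H²(Gal(L/K), Lˣ)| = [Kˣ : N Lˣ]` for cyclic `L / K`

* `h0_unitsEnd_eq_index` : for a finite cyclic Galois extension `L / K` with generator `τ`,
  the `Ĥ⁰`-index of `τ` acting on `Additive Lˣ` is the norm index `[Kˣ : N_{L/K} Lˣ]`.
* `card_H2_eq_index` : `Nat.card (H2 (Rep.ofAlgebraAutOnUnits K L)) = [Kˣ : N Lˣ]`.
* `cyclicH2Card_of` : `CyclicNormIndexStatement → CyclicH2CardStatement`.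
-/

set_option autoImplicit false
set_option linter.style.haveILetI false

namespace Fermat.Agent.S55.Local.H717

open Fermat.Agent.S55.Herbrand Fermat.Agent.S55.Local

section Abstract

variable {K L : Type} [Field K] [Field L] [Algebra K L]

/-- The action of `τ` on `Additive Lˣ` as an additive endomorphism. -/
noncomputable def unitsEnd (τ : L ≃ₐ[K] L) : AddMonoid.End (Additive Lˣ) :=
  MonoidHom.toAdditive (Units.map (τ : L →* L))

@[simp] lemma unitsEnd_apply (τ : L ≃ₐ[K] L) (x : Additive Lˣ) :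
    unitsEnd τ x = Additive.ofMul (Units.map (τ : L →* L) x.toMul) := rfl

lemma unitsEnd_pow_apply (τ : L ≃ₐ[K] L) (i : ℕ) (x : Additive Lˣ) :
    (unitsEnd τ ^ i) x = Additive.ofMul (Units.map ((τ ^ i : L ≃ₐ[K] L) : L →* L) x.toMul) := by
  induction i generalizing x with
  | zero =>
    simp only [pow_zero]
    change x = _
    apply Additive.toMul.injective
    ext
    simp
  | succ i ih =>
    rw [pow_succ, pow_succ]
    change (unitsEnd τ ^ i) (unitsEnd τ x) = _
    rw [ih]
    apply Additive.toMul.injective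
    ext
    simp

/-- The inclusion `Kˣ → Lˣ`, additively. -/
noncomputable def inclAdd : Additive Kˣ →+ Additive Lˣ := MonoidHom.toAdditive (unitsIncl L K)

lemma inclAdd_injective : Function.Injective (inclAdd (K := K) (L := L)) := by
  intro x y h
  apply Additive.toMul.injective
  have h' : unitsIncl L K x.toMul = unitsIncl L K y.toMul := congrArg Additive.toMul h
  have h2 := congrArg Units.val h'
  simp only [unitsIncl_coe] at h2
  exact Units.ext ((algebraMap K L).injective h2)

variable [FiniteDimensional K L] [IsGalois K L]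

lemma range_inclAdd_eq_ker_delta (τ : L ≃ₐ[K] L) (hτ : ∀ g, g ∈ Subgroup.zpowers τ) :
    (inclAdd (K := K) (L := L)).range = (delta (unitsEnd τ)).ker := by
  ext x
  rw [AddMonoidHom.mem_range, AddMonoidHom.mem_ker]
  constructor
  · rintro ⟨y, rfl⟩
    rw [delta_apply, sub_eq_zero]
    apply Additive.toMul.injective
    ext
    simp [inclAdd]
  · intro hx
    have hx' : unitsEnd τ x - x = 0 := hx
    rw [sub_eq_zero] at hx'
    have h1 : τ (x.toMul : L) = (x.toMul : L) := by
      have := congrArg (fun z : Additive Lˣ => ((z.toMul : Lˣ) : L)) hx'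
      simpa using this
    have h2 : ∀ g : L ≃ₐ[K] L, g (x.toMul : L) = (x.toMul : L) := by
      intro g
      obtain ⟨k, rfl⟩ := Subgroup.mem_zpowers_iff.1 (hτ g)
      have hfix : τ ∈ MulAction.stabilizer (L ≃ₐ[K] L) (x.toMul : L) := h1
      exact (Subgroup.zpow_mem _ hfix k)
    obtain ⟨y, hy⟩ := (IsGalois.mem_range_algebraMap_iff_fixed (F := K) (x.toMul : L)).2 h2
    have hy0 : y ≠ 0 := by
      rintro rfl
      rw [map_zero] at hy
      exact (x.toMul).ne_zero hy.symm
    refine ⟨Additive.ofMul (Units.mk0 y hy0), ?_⟩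
    apply Additive.toMul.injective
    ext
    simpa [inclAdd] using hy

lemma normN_unitsEnd_eq (τ : L ≃ₐ[K] L) (hτ : ∀ g, g ∈ Subgroup.zpowers τ) (x : Additive Lˣ) :
    normN (unitsEnd τ) (Nat.card (L ≃ₐ[K] L)) x =
      inclAdd (Additive.ofMul (normUnits L K x.toMul)) := by
  classical
  rw [normN_apply]
  apply Additive.toMul.injective
  apply Units.ext
  have h1 : ((inclAdd (Additive.ofMul (normUnits L K x.toMul)) : Additive Lˣ).toMul : L) =
      ∏ σ : L ≃ₐ[K] L, σ (x.toMul : L) := by
    simp [inclAdd, Algebra.norm_eq_prod_automorphisms]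
  rw [h1]
  have h2 : ∀ (s : Finset ℕ) (f : ℕ → Additive Lˣ),
      (((∑ i ∈ s, f i : Additive Lˣ).toMul : Lˣ) : L) = ∏ i ∈ s, (((f i).toMul : Lˣ) : L) := by
    intro s f
    induction s using Finset.induction_on with
    | empty => simp
    | insert a s ha ih => rw [Finset.sum_insert ha, Finset.prod_insert ha, ← ih]; simp
  rw [h2]
  have h3 : ∀ i, ((((unitsEnd τ ^ i) x).toMul : Lˣ) : L) = (τ ^ i) (x.toMul : L) := by
    intro i
    rw [unitsEnd_pow_apply]
    simp
  simp_rw [h3]
  have hord : orderOf τ = Nat.card (L ≃ₐ[K] L) := orderOf_eq_card_of_forall_mem_zpowers hτ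
  rw [← hord]
  refine Finset.prod_bij (fun i _ => τ ^ i) (fun _ _ => Finset.mem_univ _) ?_ ?_ (fun _ _ => rfl)
  · intro i hi j hj hij
    exact pow_injOn_Iio_orderOf (by simpa using hi) (by simpa using hj) hij
  · intro h _
    obtain ⟨i, hi, rfl⟩ :=
      Finset.mem_image.1 ((mem_zpowers_iff_mem_range_orderOf (x := τ) (y := h)).1 (hτ h))
    exact ⟨i, hi, rfl⟩

/-- **Key index computation.**  For a cyclic Galois extension with generator `τ`, the
`Ĥ⁰`-index of `τ` on `Additive Lˣ` equals the norm index. -/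
theorem h0_unitsEnd_eq_index (τ : L ≃ₐ[K] L) (hτ : ∀ g, g ∈ Subgroup.zpowers τ) :
    h0 (unitsEnd τ) (Nat.card (L ≃ₐ[K] L)) = (normUnits L K).range.index := by
  rw [h0_eq_relIndex]
  have hR : (normN (unitsEnd τ) (Nat.card (L ≃ₐ[K] L))).range =
      (Subgroup.toAddSubgroup (normUnits L K).range).map (inclAdd (K := K) (L := L)) := by
    ext x
    constructor
    · rintro ⟨y, rfl⟩
      rw [normN_unitsEnd_eq τ hτ]
      exact ⟨_, ⟨y.toMul, rfl⟩, rfl⟩
    · rintro ⟨z, ⟨y, hy⟩, rfl⟩
      refine ⟨Additive.ofMul y, ?_⟩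
      rw [normN_unitsEnd_eq τ hτ]
      exact congrArg (fun t => inclAdd (Additive.ofMul t)) hy
  rw [hR, ← range_inclAdd_eq_ker_delta τ hτ, ← AddSubgroup.index_comap,
    AddSubgroup.comap_map_eq_self_of_injective inclAdd_injective]
  exact Subgroup.index_toAddSubgroup

/-- `|H²(Gal(L/K), Lˣ)| = [Kˣ : N Lˣ]` for a finite cyclic Galois extension. -/
theorem card_H2_eq_index [IsCyclic (L ≃ₐ[K] L)] :
    Nat.card (groupCohomology.H2 (Rep.ofAlgebraAutOnUnits K L)) =
      (normUnits L K).range.index := by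
  obtain ⟨τ, hτ⟩ := IsCyclic.exists_generator (α := L ≃ₐ[K] L)
  letI : CommGroup (L ≃ₐ[K] L) := IsCyclic.commGroup
  have h := card_groupCohomology_even (Rep.ofAlgebraAutOnUnits K L) τ hτ 2 (by decide)
  rw [← h0_unitsEnd_eq_index τ hτ]
  exact h

end Abstract

/-- **Glue T3'.**  The norm index statement for cyclic extensions implies the `H²`-cardinality
statement. -/
theorem cyclicH2Card_of (h : CyclicNormIndexStatement) : CyclicH2CardStatement := by
  intro A F _ _ _ _ _ _ _ _ _ K _ _ _ L _ _ _ _ _ _ hcyc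
  haveI := hcyc
  rw [card_H2_eq_index]
  exact h A F K L hcyc

end Fermat.Agent.S55.Local.H717
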