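import Fermat.Agent.S55.Local.H717.CyclicIndex
import Fermat.Agent.S55.T.Spec
import Fermat.Agent.S55.H119.ResCoresCor

/-!
# S55, layer L, glue T4 (helper717): `|H²(Gal(L/K), Lˣ)|` divides `[L : K]`

`h2CardDvd_of : CyclicNormIndexStatement → T.UglySpec → H2CardDvdStatement`.
-/

set_option autoImplicit false
set_option linter.style.haveILetI false
set_option linter.unusedSectionVars false

namespace Fermat.Agent.S55.Local.H717

open Fermat.Agent.S55.Herbrand Fermat.Agent.S55.Local CategoryTheory groupCohomology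

section Hilbert90

variable {K L : Type} [Field K] [Field L] [Algebra K L] [FiniteDimensional K L]

/-- Noether's form of Hilbert 90 for a subgroup `H ≤ Gal(L/K)`. -/
theorem hilbert90_subgroup (H : Subgroup (L ≃ₐ[K] L)) (f : H → Lˣ)
    (hf : ∀ g h : H, f (g * h) = (g : L ≃ₐ[K] L) • f h * f g) :
    ∃ β : Lˣ, ∀ g : H, (g : L ≃ₐ[K] L) • β / β = f g := by
  classical
  -- Dedekind independence of the characters `h : L → L`, `h ∈ H`
  have hli : LinearIndependent L (fun h : H => (((h : L ≃ₐ[K] L) : L → L))) :=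
    LinearIndependent.comp (ι' := H) (linearIndependent_monoidHom L L)
      (fun h => (((h : L ≃ₐ[K] L) : L →ₐ[K] L) : L →* L))
      (fun x y h => Subtype.ext (by
        ext z
        exact DFunLike.congr_fun h z))
  have hne : (∑ h : H, (f h : L) • (((h : L ≃ₐ[K] L) : L → L))) ≠ 0 := by
    intro h0
    have := Fintype.linearIndependent_iff.1 hli (fun h => (f h : L)) h0 1
    exact Units.ne_zero (f 1) this
  obtain ⟨z, hz⟩ : ∃ z, (∑ h : H, (f h : L) • (((h : L ≃ₐ[K] L) : L → L))) z ≠ 0 :=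
    not_forall.1 (fun hall => hne (funext hall))
  have hz' : (∑ h : H, (f h : L) * (h : L ≃ₐ[K] L) z) ≠ 0 := by
    simpa [Finset.sum_apply] using hz
  refine ⟨(Units.mk0 _ hz')⁻¹, fun g => ?_⟩
  rw [smul_inv', div_inv_eq_mul, inv_mul_eq_iff_eq_mul]
  apply Units.ext
  simp only [Units.val_mul, Units.val_mk0, AlgEquiv.smul_units_def, Units.coe_map,
    MonoidHom.coe_coe]
  rw [map_sum, Finset.sum_mul]
  have := Fintype.sum_bijective (fun i : H => g * i) (Group.mulLeft_bijective g)
    (fun i => (f (g * i) : L) * ((g * i : H) : L ≃ₐ[K] L) z)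
    (fun i => (f i : L) * (i : L ≃ₐ[K] L) z) (fun i => rfl)
  rw [← this]
  refine Finset.sum_congr rfl fun i _ => ?_
  rw [hf g i]
  simp only [Units.val_mul, AlgEquiv.smul_units_def, Units.coe_map, MonoidHom.coe_coe,
    Subgroup.coe_mul, AlgEquiv.mul_apply, map_mul]
  ring

/-- `H¹(H, Lˣ) = 0` for every subgroup `H ≤ Gal(L/K)`. -/
theorem isZero_H1_resSub (H : Subgroup (L ≃ₐ[K] L)) :
    Limits.IsZero (groupCohomology (T.resSub (Rep.ofAlgebraAutOnUnits K L) H) 1) := by
  rw [ModuleCat.isZero_iff_subsingleton]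
  refine ⟨fun a b => ?_⟩
  suffices h : ∀ x : H1 (T.resSub (Rep.ofAlgebraAutOnUnits K L) H), x = 0 by
    rw [h a, h b]
  intro x
  induction x using H1_induction_on with
  | h c =>
    rw [H1π_eq_zero_iff]
    have hc := (mem_cocycles₁_iff (c : H → _)).1 c.2
    obtain ⟨β, hβ⟩ := hilbert90_subgroup H (fun h => Additive.toMul (c h)) (fun g h => by
      have := hc g h
      exact congrArg Additive.toMul this)
    refine ⟨Additive.ofMul β, funext fun g => ?_⟩
    have := hβ g
    exact congrArg Additive.ofMul this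

end Hilbert90

section Layer

open IntermediateField

variable {K L : Type} [Field K] [Field L] [Algebra K L] [FiniteDimensional K L] [IsGalois K L]
variable (H : Subgroup (L ≃ₐ[K] L)) (N : Subgroup H) [N.Normal]

/-- The fixed field `E₁ = L^H`. -/
abbrev layerBot : IntermediateField K L := fixedField H

/-- `φ : H ≃* Gal(L/E₁)`. -/
noncomputable abbrev layerPhi : H ≃* (L ≃ₐ[layerBot H] L) := subgroupEquivAlgEquiv H

lemma layerPhi_apply (h : H) (x : L) : layerPhi H h x = (h : L ≃ₐ[K] L) x := rfl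

/-- `N₁ = φ(N) ≤ Gal(L/E₁)`. -/
noncomputable abbrev layerN : Subgroup (L ≃ₐ[layerBot H] L) :=
  N.map ((layerPhi H : H ≃* (L ≃ₐ[layerBot H] L)) : H →* (L ≃ₐ[layerBot H] L))

instance layerN_normal : (layerN H N).Normal :=
  Subgroup.Normal.map inferInstance _ (layerPhi H).surjective

/-- The fixed field `E₂ = L^N`, as an intermediate field of `L / E₁`. -/
noncomputable abbrev layerTop : IntermediateField (layerBot H) L := fixedField (layerN H N)

/-- `Ψ : H ⧸ N ≃* Gal(E₂/E₁)`. -/
noncomputable def layerPsi : H ⧸ N ≃* ((layerTop H N) ≃ₐ[layerBot H] (layerTop H N)) :=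
  (QuotientGroup.congr N (layerN H N) (layerPhi H) rfl).trans
    (IsGalois.normalAutEquivQuotient (layerN H N))

lemma layerPsi_mk_apply (h : H) (x : layerTop H N) :
    ((layerPsi H N (QuotientGroup.mk h) x : layerTop H N) : L) = (h : L ≃ₐ[K] L) (x : L) := by
  simp only [layerPsi, MulEquiv.trans_apply, QuotientGroup.congr_mk]
  rw [IsGalois.normalAutEquivQuotient_apply, AlgEquiv.restrictNormalHom_apply]
  rfl

lemma mem_layerTop_iff (x : L) :
    x ∈ layerTop H N ↔ ∀ n : N, ((n : H) : L ≃ₐ[K] L) x = x := by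
  rw [IntermediateField.mem_fixedField_iff]
  constructor
  · intro h n
    exact h (layerPhi H n) ⟨n, n.2, rfl⟩
  · rintro h f ⟨n, hn, rfl⟩
    exact h ⟨n, hn⟩

/-- The underlying unit of an element of the restricted representation. -/
def uv (x : (T.resSub (Rep.ofAlgebraAutOnUnits K L) H).V) : Lˣ :=
  Additive.toMul (Rep.toAdditive (M := L ≃ₐ[K] L) (G := Lˣ) x)

/-- The element of the restricted representation attached to a unit. -/
def vu (u : Lˣ) : (T.resSub (Rep.ofAlgebraAutOnUnits K L) H).V :=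
  (Rep.toAdditive (M := L ≃ₐ[K] L) (G := Lˣ)).symm (Additive.ofMul u)

@[simp] lemma uv_vu (u : Lˣ) : uv H (vu H u) = u := rfl

@[simp] lemma vu_uv (x : (T.resSub (Rep.ofAlgebraAutOnUnits K L) H).V) : vu H (uv H x) = x := rfl

lemma uv_injective : Function.Injective (uv (K := K) (L := L) H) := fun x y h => by
  rw [← vu_uv H x, ← vu_uv H y, h]

@[simp] lemma uv_zero : uv H (0 : (T.resSub (Rep.ofAlgebraAutOnUnits K L) H).V) = 1 := rfl

@[simp] lemma uv_add (x y : (T.resSub (Rep.ofAlgebraAutOnUnits K L) H).V) :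
    uv H (x + y) = uv H x * uv H y := rfl

@[simp] lemma uv_ρ (h : H) (x : (T.resSub (Rep.ofAlgebraAutOnUnits K L) H).V) :
    ((uv H ((T.resSub (Rep.ofAlgebraAutOnUnits K L) H).ρ h x) : Lˣ) : L) =
      (h : L ≃ₐ[K] L) ((uv H x : Lˣ) : L) := rfl

/-- The `H ⧸ N`-representation `(Lˣ)^N`. -/
noncomputable abbrev layerRep : Rep.{0} ℤ (H ⧸ N) :=
  (T.resSub (Rep.ofAlgebraAutOnUnits K L) H).quotientToInvariants N

lemma layerRep_mem_iff (x : (T.resSub (Rep.ofAlgebraAutOnUnits K L) H).V) :
    x ∈ Representation.invariants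
        ((T.resSub (Rep.ofAlgebraAutOnUnits K L) H).ρ.comp N.subtype) ↔
      ∀ n : N, ((n : H) : L ≃ₐ[K] L) ((uv H x : Lˣ) : L) = ((uv H x : Lˣ) : L) := by
  rw [Representation.mem_invariants]
  constructor
  · intro h n
    exact congrArg (fun z => ((uv H z : Lˣ) : L)) (h n)
  · intro h n
    apply uv_injective H
    apply Units.ext
    exact h n

/-- The underlying unit of an element of `(Lˣ)^N`. -/
def uvB (y : (layerRep H N).V) : Lˣ := uv H y.1

lemma uvB_injective : Function.Injective (uvB (K := K) (L := L) H N) := fun x y h =>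
  Subtype.ext (uv_injective H h)

lemma uvB_ρ_mk (h : H) (y : (layerRep H N).V) :
    ((uvB H N ((layerRep H N).ρ (QuotientGroup.mk h) y) : Lˣ) : L) =
      (h : L ≃ₐ[K] L) ((uvB H N y : Lˣ) : L) := rfl

lemma uvB_mem (y : (layerRep H N).V) : ((uvB H N y : Lˣ) : L) ∈ layerTop H N :=
  (mem_layerTop_iff H N _).2 ((layerRep_mem_iff H N y.1).1 y.2)

/-- The additive map `Additive E₂ˣ → (Lˣ)^N`. -/
noncomputable def layerE₀ : Additive (layerTop H N)ˣ →+ (layerRep H N).V where
  toFun x := ⟨vu H (Units.map (algebraMap (layerTop H N) L : layerTop H N →* L) x.toMul),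
    (layerRep_mem_iff H N _).2 fun n => by
      have := (mem_layerTop_iff H N ((x.toMul : (layerTop H N)ˣ) : layerTop H N)).1
        (x.toMul : (layerTop H N)ˣ).1.2 n
      simpa using this⟩
  map_zero' := rfl
  map_add' _ _ := rfl

lemma uvB_layerE₀ (x : Additive (layerTop H N)ˣ) :
    ((uvB H N (layerE₀ H N x) : Lˣ) : L) = ((x.toMul : (layerTop H N)ˣ) : layerTop H N) := rfl

lemma layerE₀_bijective : Function.Bijective (layerE₀ H N) := by
  constructor
  · intro x y hxy
    have h : (((x.toMul : (layerTop H N)ˣ) : layerTop H N) : L) =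
        ((y.toMul : (layerTop H N)ˣ) : layerTop H N) :=
      congrArg (fun z : (layerRep H N).V => ((uvB H N z : Lˣ) : L)) hxy
    apply Additive.toMul.injective
    apply Units.ext
    exact Subtype.ext h
  · intro y
    have hmem := uvB_mem H N y
    have hne : (⟨_, hmem⟩ : layerTop H N) ≠ 0 := by
      intro h0
      have := congrArg (fun z : layerTop H N => (z : L)) h0
      exact (uvB H N y).ne_zero this
    refine ⟨Additive.ofMul (Units.mk0 ⟨_, hmem⟩ hne), ?_⟩
    apply uvB_injective H N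
    apply Units.ext
    rfl

/-- The additive equivalence `Additive E₂ˣ ≃+ (Lˣ)^N`. -/
noncomputable def layerE : Additive (layerTop H N)ˣ ≃+ (layerRep H N).V :=
  AddEquiv.ofBijective (layerE₀ H N) (layerE₀_bijective H N)

lemma uvB_layerE (x : Additive (layerTop H N)ˣ) :
    ((uvB H N (layerE H N x) : Lˣ) : L) = ((x.toMul : (layerTop H N)ˣ) : layerTop H N) := rfl

/-- `|H²(H/N, (Lˣ)^N)| = [E₁ˣ : N_{E₂/E₁} E₂ˣ]` when `H/N` is cyclic, where `E₁ = L^H`,
`E₂ = L^N`. -/
theorem card_H2_layerRep (hcyc : IsCyclic (H ⧸ N)) :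
    Nat.card (groupCohomology (layerRep H N) 2) =
      (normUnits (layerTop H N) (layerBot H)).range.index := by
  obtain ⟨g, hg⟩ := IsCyclic.exists_generator (α := H ⧸ N)
  letI : CommGroup (H ⧸ N) := IsCyclic.commGroup
  letI : Fintype (H ⧸ N) := Fintype.ofFinite _
  have h1 := card_groupCohomology_even (layerRep H N) g hg 2 (by decide)
  rw [h1]
  have hτ : ∀ x, x ∈ Subgroup.zpowers (layerPsi H N g) := by
    intro x
    obtain ⟨y, rfl⟩ := (layerPsi H N).surjective x
    obtain ⟨k, rfl⟩ := Subgroup.mem_zpowers_iff.1 (hg y)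
    exact ⟨k, (map_zpow (layerPsi H N) g k).symm⟩
  rw [← h0_unitsEnd_eq_index (layerPsi H N g) hτ, ← Nat.card_congr (layerPsi H N).toEquiv]
  symm
  refine h0_eq_of_equiv (layerE H N) ?_ _
  intro a
  obtain ⟨h, rfl⟩ := QuotientGroup.mk_surjective g
  apply uvB_injective H N
  apply Units.ext
  rw [uvB_layerE]
  have e1 : ((uvB H N (repEnd (layerRep H N) (QuotientGroup.mk h) (layerE H N a)) : Lˣ) : L) =
      (h : L ≃ₐ[K] L) ((uvB H N (layerE H N a) : Lˣ) : L) := uvB_ρ_mk H N h _
  rw [e1, uvB_layerE, ← layerPsi_mk_apply]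
  rfl

end Layer

/-- **Glue T4.**  `|H²(Gal(L/K), Lˣ)|` divides `[L : K]`, from the cyclic norm index statement
and the "ugly lemma" of layer T. -/
theorem h2CardDvd_of (hT3 : CyclicNormIndexStatement) (hUgly : T.UglySpec) :
    H2CardDvdStatement := by
  intro A F _ _ _ _ _ _ _ _ _ K _ _ _ L _ _ _ _ _ _
  have key := hUgly ℤ (L ≃ₐ[K] L) (Rep.ofAlgebraAutOnUnits K L) (isZero_H1_resSub (K := K) (L := L))
    (fun H N _ hp => by
      have hcyc : IsCyclic (H ⧸ N) := isCyclic_of_prime_card (p := Nat.card (H ⧸ N))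
        (hp := ⟨hp⟩) rfl
      have hcard := card_H2_layerRep H N hcyc
      haveI : FiniteDimensional F (layerBot H) := FiniteDimensional.trans F K (layerBot H)
      letI : Algebra F (layerTop H N) :=
        ((algebraMap (layerBot H) (layerTop H N)).comp (algebraMap F (layerBot H))).toAlgebra
      haveI : IsScalarTower F (layerBot H) (layerTop H N) :=
        IsScalarTower.of_algebraMap_eq (fun _ => rfl)
      have hcyc' : IsCyclic ((layerTop H N) ≃ₐ[layerBot H] (layerTop H N)) :=
        isCyclic_of_surjective (layerPsi H N) (layerPsi H N).surjective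
      have h3 := hT3 A F (layerBot H) (layerTop H N) hcyc'
      have h4 : Nat.card (groupCohomology (layerRep H N) 2) = Nat.card (H ⧸ N) := by
        rw [hcard, h3, ← IsGalois.card_aut_eq_finrank]
        exact (Nat.card_congr (layerPsi H N).toEquiv).symm
      refine ⟨?_, ?_⟩
      · exact Nat.finite_of_card_ne_zero (h4 ▸ hp.ne_zero)
      · exact h4 ▸ dvd_rfl) ⊤
  obtain ⟨hfin, hdvd⟩ := key
  have hinj : Function.Injective
      (T.resMap (Rep.ofAlgebraAutOnUnits K L) (⊤ : Subgroup (L ≃ₐ[K] L)) 2).hom := by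
    rw [injective_iff_map_eq_zero]
    intro x hx
    have := H119.index_nsmul_eq_zero_of_resMap_eq_zero_two (Rep.ofAlgebraAutOnUnits K L)
      (⊤ : Subgroup (L ≃ₐ[K] L)) x hx
    rw [Subgroup.index_top] at this
    exact (one_nsmul x).symm.trans this
  have h5 := AddSubgroup.card_dvd_of_injective
    ((T.resMap (Rep.ofAlgebraAutOnUnits K L) (⊤ : Subgroup (L ≃ₐ[K] L)) 2).hom.toAddMonoidHom)
    hinj
  rw [Subgroup.card_top, IsGalois.card_aut_eq_finrank] at hdvd
  exact h5.trans hdvd

end Fermat.Agent.S55.Local.H717
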